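import Fermat.Agent.ExplicitFormula.Digamma
import Fermat.Agent.ThetaOne.SineValue
import Mathlib.NumberTheory.Harmonic.EulerMascheroni
import Mathlib.RingTheory.RootsOfUnity.Complex
import Mathlib.Tactic

/-!
# Gauss's digamma theorem

The series for the digamma function at `p / q`, split by the characters of `ℤ / q`, leaves the
series `∑ ω ^ (a n) / n = - log (1 - ω ^ a)`.
-/

set_option autoImplicit false

noncomputable section

open Filter Topology Finset Complex
open FA.OrderTheta (circlePoint powWeight partsTerm)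
open scoped Real

namespace FA.GaussDigamma

theorem tendsto_digamma {x : ℝ} (hx : 0 < x) :
    Tendsto (fun N : ℕ => ((Real.log N - ∑ k ∈ range N, (x + k)⁻¹ : ℝ) : ℂ)) atTop
      (𝓝 (digamma (x : ℂ))) := by
  have h := (FA.ExplicitFormula.hasSum_digamma (z := (x : ℂ)) (by simpa using hx)).tendsto_sum_nat
  rw [← logDeriv_apply, ← digamma_def] at h
  have h' := h.sub_const ((x : ℂ)⁻¹)
  rw [add_sub_cancel_right] at h'
  refine (tendsto_add_atTop_iff_nat 1).1 (h'.congr fun N => ?_)
  induction N with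
  | zero => simp
  | succ N ih =>
    rw [sum_range_succ, add_sub_right_comm, ih, sum_range_succ _ (N + 1)]
    have h1 : (0 : ℝ) < (N : ℝ) + 1 := by positivity
    rw [show (1 : ℝ) + 1 / ((N : ℝ) + 1) = ((N : ℝ) + 1 + 1) / ((N : ℝ) + 1) by field_simp,
      Real.log_div (by positivity) h1.ne']
    push_cast
    ring

theorem tendsto_series {x : ℝ} (hx : x ∈ Set.Ioo (0 : ℝ) 1) :
    Tendsto (fun N : ℕ => ∑ n ∈ range N, circlePoint x ^ (n + 1) / ((n : ℂ) + 1)) atTop
      (𝓝 (-Complex.log (1 - circlePoint x))) := by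
  set z := circlePoint x
  have hz := FA.OrderTheta.circlePoint_ne_one hx
  have hn := FA.OrderTheta.norm_circlePoint x
  obtain ⟨L, hL⟩ : ∃ L, Tendsto (fun N : ℕ => ∑ n ∈ range N, z ^ (n + 1) / ((n : ℂ) + 1)) atTop
      (𝓝 L) := by
    refine ⟨_, (FA.OrderTheta.tendsto_weighted hz hn (Set.left_mem_Icc.mpr one_le_two)).congr
      fun N => sum_congr rfl fun i _ => ?_⟩
    rw [FA.OrderTheta.powWeight_one]
    push_cast
    rw [div_eq_mul_inv]
  suffices L = -Complex.log (1 - z) by rwa [← this]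
  have hsum : Tendsto (fun N => ∑ n ∈ range N, z ^ n / (n : ℂ)) atTop (𝓝 L) := by
    refine (tendsto_add_atTop_iff_nat 1).mp (hL.congr fun N => ?_)
    rw [sum_range_succ', Nat.cast_zero, div_zero, add_zero]
    simp
  refine tendsto_nhds_unique (Complex.tendsto_tsum_powerSeries_nhdsWithin_lt hsum) ?_
  rw [tendsto_map'_iff]
  have hmem : 1 - z ∈ Complex.slitPlane := by
    rw [Complex.mem_slitPlane_iff_arg]
    refine ⟨?_, sub_ne_zero.mpr hz.symm⟩
    rw [← Complex.log_im, FA.OrderTheta.log_one_sub_circlePoint hx]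
    simp
    nlinarith [Real.pi_pos, hx.1, hx.2]
  have hc : ContinuousAt (fun r : ℝ => -Complex.log (1 - (r : ℂ) * z)) 1 := by
    refine (ContinuousAt.clog (by fun_prop) ?_).neg
    simpa using hmem
  have ht := hc.tendsto
  simp only [ofReal_one, one_mul] at ht
  refine (tendsto_nhdsWithin_of_tendsto_nhds ht).congr' ?_
  filter_upwards [Ioo_mem_nhdsLT (show (0 : ℝ) < 1 by norm_num)] with r hr
  simp only [Function.comp_apply]
  rw [← (Complex.hasSum_taylorSeries_neg_log (z := (r : ℂ) * z) (by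
    rw [norm_mul, hn, mul_one, Complex.norm_real, Real.norm_of_nonneg hr.1.le]
    exact hr.2)).tsum_eq]
  exact tsum_congr fun n => by rw [mul_pow]; ring

/-- The weights of the residue `p`. -/
def weight (p q a : ℕ) : ℂ := Complex.exp (-(2 * π * I / q)) ^ (a * p)

theorem weight_mul_circle (p q a n : ℕ) :
    weight p q a * circlePoint ((a : ℝ) / q) ^ n =
      Complex.exp (2 * π * I * ((n : ℂ) - p) / q) ^ a := by
  rw [weight, circlePoint, ← Complex.exp_nat_mul, ← Complex.exp_nat_mul, ← Complex.exp_add,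
    ← Complex.exp_nat_mul]
  congr 1
  push_cast
  ring

theorem sum_weight_mul (p q n : ℕ) (hq : 0 < q) (hp : p < q) :
    ∑ a ∈ range q, weight p q a * circlePoint ((a : ℝ) / q) ^ n =
      if n % q = p then (q : ℂ) else 0 := by
  simp only [weight_mul_circle]
  have hz := Complex.isPrimitiveRoot_exp q hq.ne'
  set w := Complex.exp (2 * π * I * ((n : ℂ) - p) / q) with hw
  have hwz : w = Complex.exp (2 * π * I / q) ^ ((n : ℤ) - p) := by
    rw [← Complex.exp_int_mul, hw]
    congr 1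
    push_cast
    ring
  have hwq : w ^ q = 1 := by
    rw [hwz, ← zpow_natCast, ← zpow_mul, mul_comm ((n : ℤ) - p), zpow_mul, zpow_natCast,
      hz.pow_eq_one, one_zpow]
  have hiff : w = 1 ↔ n % q = p := by
    rw [hwz, hz.zpow_eq_one_iff_dvd]
    constructor
    · rintro ⟨c, hc⟩
      have h1 : ((n : ℤ)) % q = p := by
        rw [show (n : ℤ) = p + q * c by omega, Int.add_mul_emod_self_left]
        exact Int.emod_eq_of_lt (by omega) (by omega)
      exact_mod_cast h1
    · intro h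
      exact ⟨((n / q : ℕ) : ℤ), by
        have := Nat.mod_add_div n q
        rw [h] at this
        push_cast
        linarith [show ((p : ℤ)) + q * ((n / q : ℕ) : ℤ) = n by exact_mod_cast this]⟩
  split_ifs with h
  · simp [hiff.2 h]
  · rw [geom_sum_eq (mt hiff.1 h), hwq, sub_self, zero_div]

theorem sum_progression {p q : ℕ} (hp : 0 < p) (hpq : p < q) (N : ℕ) :
    ((∑ k ∈ range N, ((p : ℝ) / q + k)⁻¹ : ℝ) : ℂ) =
      ∑ a ∈ range q, weight p q a *
        ∑ n ∈ range (q * N), circlePoint ((a : ℝ) / q) ^ (n + 1) / ((n : ℂ) + 1) := by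
  have hq : 0 < q := hp.trans hpq
  simp only [mul_sum]
  have key : ∀ n : ℕ,
      (∑ a ∈ range q, weight p q a * (circlePoint ((a : ℝ) / q) ^ (n + 1) / ((n : ℂ) + 1))) =
        if (n + 1) % q = p then (q : ℂ) / ((n : ℂ) + 1) else 0 := fun n => by
    simp only [← mul_div_assoc, ← sum_div, sum_weight_mul p q (n + 1) hq hpq]
    split_ifs <;> simp
  rw [sum_comm]
  simp only [key]
  rw [← sum_filter, Complex.ofReal_sum]
  have hset : (range (q * N)).filter (fun n => (n + 1) % q = p) =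
      (range N).image (fun k => q * k + (p - 1)) := by
    ext n
    simp only [mem_filter, mem_range, mem_image]
    constructor
    · rintro ⟨hn, hmod⟩
      refine ⟨(n + 1) / q, ?_, ?_⟩
      · have h1 := Nat.mod_add_div (n + 1) q
        rw [hmod] at h1
        exact Nat.lt_of_mul_lt_mul_left (a := q) (by omega)
      · have h1 := Nat.mod_add_div (n + 1) q
        omega
    · rintro ⟨k, hk, rfl⟩
      refine ⟨?_, ?_⟩
      · have := Nat.mul_le_mul_left q (show k + 1 ≤ N by omega)
        rw [mul_add, mul_one] at this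
        omega
      · rw [show q * k + (p - 1) + 1 = p + q * k by omega, Nat.add_mul_mod_self_left,
          Nat.mod_eq_of_lt hpq]
  rw [hset, sum_image fun i _ j _ e => Nat.eq_of_mul_eq_mul_left hq (Nat.add_right_cancel e)]
  refine sum_congr rfl fun k _ => ?_
  rw [Nat.cast_add (q * k), Nat.cast_sub hp]
  have hq' : (q : ℂ) ≠ 0 := Nat.cast_ne_zero.2 hq.ne'
  push_cast
  field_simp
  ring

/-- The value by a finite Fourier sum. -/
theorem digamma_eq_sum {p q : ℕ} (hp : 0 < p) (hpq : p < q) :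
    digamma ((p : ℂ) / q) = -(Real.eulerMascheroniConstant : ℂ) - Real.log q +
      ∑ a ∈ Ico 1 q, weight p q a * Complex.log (1 - circlePoint ((a : ℝ) / q)) := by
  have hq : 0 < q := hp.trans hpq
  have hq' : (0 : ℝ) < q := Nat.cast_pos.2 hq
  have h := tendsto_digamma (x := (p : ℝ) / q) (div_pos (Nat.cast_pos.2 hp) hq')
  rw [show (((p : ℝ) / q : ℝ) : ℂ) = (p : ℂ) / q by push_cast; ring] at h
  refine tendsto_nhds_unique h ?_
  have hmul : Tendsto (fun N : ℕ => q * N) atTop atTop := tendsto_id.const_mul_atTop' hq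
  have h1 : Tendsto (fun N : ℕ => ((Real.log N - (harmonic (q * N) : ℝ) : ℝ) : ℂ)) atTop
      (𝓝 (-(Real.eulerMascheroniConstant : ℂ) - Real.log q)) := by
    have := ((Real.tendsto_harmonic_sub_log.comp hmul).neg.sub_const (Real.log q))
    rw [show (-(Real.eulerMascheroniConstant : ℂ) - Real.log q) =
      ((-Real.eulerMascheroniConstant - Real.log q : ℝ) : ℂ) by push_cast; rfl]
    refine (Complex.continuous_ofReal.tendsto _).comp (this.congr' ?_)
    filter_upwards [eventually_gt_atTop 0] with N hN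
    simp only [Function.comp_apply, Nat.cast_mul]
    rw [Real.log_mul hq'.ne' (Nat.cast_ne_zero.2 hN.ne')]
    ring
  have h2 : Tendsto (fun N : ℕ => ∑ a ∈ Ico 1 q, weight p q a *
      ∑ n ∈ range (q * N), circlePoint ((a : ℝ) / q) ^ (n + 1) / ((n : ℂ) + 1)) atTop
      (𝓝 (∑ a ∈ Ico 1 q, weight p q a * -Complex.log (1 - circlePoint ((a : ℝ) / q)))) := by
    refine tendsto_finsetSum _ fun a ha => ?_
    obtain ⟨ha1, ha2⟩ := mem_Ico.1 ha
    have hmem : ((a : ℝ) / q) ∈ Set.Ioo (0 : ℝ) 1 :=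
      ⟨div_pos (Nat.cast_pos.2 ha1) hq', (div_lt_one hq').2 (Nat.cast_lt.2 ha2)⟩
    exact ((tendsto_series hmem).comp hmul).const_mul _
  have h3 := h1.sub h2
  simp only [mul_neg, sum_neg_distrib, sub_neg_eq_add] at h3
  refine h3.congr fun N => ?_
  have e := sum_progression hp hpq N
  have split : ∀ f : ℕ → ℂ, ∑ a ∈ range q, f a = f 0 + ∑ a ∈ Ico 1 q, f a := fun f => by
    rw [range_eq_Ico, sum_eq_sum_Ico_succ_bot hq]
  rw [split] at e
  have e0 : weight p q 0 * ∑ n ∈ range (q * N),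
      circlePoint (((0 : ℕ) : ℝ) / q) ^ (n + 1) / ((n : ℂ) + 1) = (harmonic (q * N) : ℝ) := by
    simp [weight, circlePoint, harmonic]
  rw [e0] at e
  rw [Complex.ofReal_sub (Real.log N) (∑ k ∈ range N, _), e, Complex.ofReal_sub]
  ring

theorem sum_range_mul_pow (w : ℂ) (n : ℕ) :
    (w - 1) * ∑ a ∈ range n, (a : ℂ) * w ^ a = (n : ℂ) * w ^ n - ∑ a ∈ range n, w ^ (a + 1) := by
  induction n with
  | zero => simp
  | succ n ih =>
    rw [sum_range_succ, mul_add, ih, sum_range_succ _ n]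
    push_cast
    ring

/-- **Gauss's digamma theorem.** -/
theorem gauss_digamma {p q : ℕ} (hp : 0 < p) (hpq : p < q) :
    digamma ((p : ℂ) / q) = ((-Real.eulerMascheroniConstant - Real.log (2 * q) -
      π / 2 * Real.cot (π * p / q) + ∑ a ∈ Ico 1 q,
        Real.cos (2 * π * a * p / q) * Real.log (Real.sin (π * a / q)) : ℝ) : ℂ) := by
  have hq : 0 < q := hp.trans hpq
  have hq' : (0 : ℝ) < q := Nat.cast_pos.2 hq
  have hqC : (q : ℂ) ≠ 0 := Nat.cast_ne_zero.2 hq.ne'
  have him : (digamma ((p : ℂ) / q)).im = 0 := by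
    have h := (Complex.continuous_im.tendsto _).comp
      (tendsto_digamma (x := (p : ℝ) / q) (div_pos (Nat.cast_pos.2 hp) hq'))
    rw [show (((p : ℝ) / q : ℝ) : ℂ) = (p : ℂ) / q by push_cast; ring] at h
    simp only [Function.comp_def, Complex.ofReal_im] at h
    exact tendsto_nhds_unique h tendsto_const_nhds
  set θ : ℝ := π * p / q with hθ
  set w : ℂ := Complex.exp (-(2 * π * I / q)) ^ p with hw
  have hwa : ∀ a, weight p q a = w ^ a := fun a => by rw [weight, hw, ← pow_mul, mul_comm a p]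
  have hwexp : w = Complex.exp (((-2 * θ : ℝ) : ℂ) * I) := by
    rw [hw, ← Complex.exp_nat_mul, hθ]
    congr 1
    push_cast
    ring
  have hwq : w ^ q = 1 := by
    rw [hw, ← pow_mul, ← Complex.exp_nat_mul, Complex.exp_eq_one_iff]
    exact ⟨-(p : ℤ), by push_cast; field_simp⟩
  have hsin : 0 < Real.sin θ := by
    refine Real.sin_pos_of_pos_of_lt_pi (by rw [hθ]; positivity) ?_
    rw [hθ, div_lt_iff₀ hq']
    exact mul_lt_mul_of_pos_left (Nat.cast_lt.2 hpq) Real.pi_pos
  have hhalf : w - 1 = Complex.exp (((-θ : ℝ) : ℂ) * I) * (-(2 * Real.sin θ : ℝ) * I) := by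
    rw [hwexp]
    push_cast
    rw [Complex.sin]
    have e1 : Complex.exp (-(θ : ℂ) * I) * Complex.exp ((θ : ℂ) * I) = 1 := by
      rw [← Complex.exp_add, neg_mul, neg_add_cancel, Complex.exp_zero]
    rw [show (-2 * (θ : ℂ)) * I = -(θ : ℂ) * I + -(θ : ℂ) * I by ring, Complex.exp_add]
    linear_combination e1 + Complex.exp (-(θ : ℂ) * I) *
      (Complex.exp (-(θ : ℂ) * I) - Complex.exp ((θ : ℂ) * I)) * Complex.I_mul_I
  have hw1 : w ≠ 1 := fun h => by
    rw [h, sub_self] at hhalf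
    rcases mul_eq_zero.1 hhalf.symm with h' | h'
    · exact Complex.exp_ne_zero _ h'
    · rw [mul_eq_zero] at h'
      simp [Complex.I_ne_zero] at h'
      rw [← Complex.ofReal_sin, Complex.ofReal_eq_zero] at h'
      exact hsin.ne' h'
  have hgeo : ∑ a ∈ range q, w ^ a = 0 := by rw [geom_sum_eq hw1, hwq, sub_self, zero_div]
  have hgeo1 : ∑ a ∈ Ico 1 q, w ^ a = -1 := by
    rw [range_eq_Ico, sum_eq_sum_Ico_succ_bot hq, pow_zero, zero_add] at hgeo
    linear_combination hgeo
  have hlin : ∑ a ∈ Ico 1 q, (a : ℂ) * w ^ a = (q : ℂ) / (w - 1) := by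
    have h := sum_range_mul_pow w q
    rw [range_eq_Ico, sum_eq_sum_Ico_succ_bot hq, ← range_eq_Ico] at h
    simp only [Nat.cast_zero, zero_mul, zero_add, hwq, mul_one, pow_succ, ← sum_mul, hgeo,
      sub_zero] at h
    rw [eq_div_iff (sub_ne_zero.2 hw1), mul_comm, h]
  have hcot : (q : ℂ) / (w - 1) / q + 1 / 2 = ((Real.cot θ / 2 : ℝ) : ℂ) * I := by
    have hne : w - 1 ≠ 0 := sub_ne_zero.2 hw1
    have hsum : w + 1 = Complex.exp (((-θ : ℝ) : ℂ) * I) * (2 * Real.cos θ : ℝ) := by
      rw [hwexp]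
      push_cast
      rw [Complex.two_cos, mul_add, ← Complex.exp_add, ← Complex.exp_add,
        show -(θ : ℂ) * I + θ * I = 0 by ring, Complex.exp_zero, add_comm]
      ring_nf
    have hs : (Real.sin θ : ℂ) ≠ 0 := Complex.ofReal_ne_zero.2 hsin.ne'
    rw [show (q : ℂ) / (w - 1) / q + 1 / 2 = (w + 1) / (2 * (w - 1)) by field_simp; ring,
      hsum, hhalf, Real.cot_eq_cos_div_sin]
    have he := Complex.exp_ne_zero (((-θ : ℝ) : ℂ) * I)
    push_cast at he hs ⊢
    field_simp
    linear_combination -(Complex.cos θ) * Complex.I_mul_I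
  have hmain := digamma_eq_sum hp hpq
  have e : ∑ a ∈ Ico 1 q, weight p q a * Complex.log (1 - circlePoint ((a : ℝ) / q)) =
      ∑ a ∈ Ico 1 q, w ^ a * (Real.log (Real.sin (π * a / q)) : ℂ) - Real.log 2 +
        ((-(π / 2 * Real.cot θ) : ℝ) : ℂ) := by
    have e1 : ∀ a ∈ Ico 1 q, weight p q a * Complex.log (1 - circlePoint ((a : ℝ) / q)) =
        w ^ a * (Real.log (Real.sin (π * a / q)) : ℂ) + (Real.log 2 : ℂ) * w ^ a +
          ((π : ℂ) * I) * ((a : ℂ) * w ^ a / q - 1 / 2 * w ^ a) := by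
      intro a ha
      obtain ⟨ha1, ha2⟩ := mem_Ico.1 ha
      have hmem : ((a : ℝ) / q) ∈ Set.Ioo (0 : ℝ) 1 :=
        ⟨div_pos (Nat.cast_pos.2 ha1) hq', (div_lt_one hq').2 (Nat.cast_lt.2 ha2)⟩
      rw [hwa, FA.OrderTheta.log_one_sub_circlePoint hmem,
        Real.log_mul two_ne_zero (FA.OrderTheta.sin_pi_mul_pos hmem).ne', mul_div_assoc]
      push_cast
      ring
    rw [sum_congr rfl e1, sum_add_distrib, sum_add_distrib, ← mul_sum, ← mul_sum, sum_sub_distrib,
      ← sum_div, ← mul_sum, hgeo1, hlin]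
    have e2 : ((π : ℂ) * I) * ((q : ℂ) / (w - 1) / q - 1 / 2 * -1) =
        ((-(π / 2 * Real.cot θ) : ℝ) : ℂ) := by
      rw [show (q : ℂ) / (w - 1) / q - 1 / 2 * -1 = (q : ℂ) / (w - 1) / q + 1 / 2 by ring, hcot]
      push_cast
      linear_combination ((π : ℂ) * (Complex.cot θ / 2)) * Complex.I_mul_I
    rw [e2]
    ring
  rw [e] at hmain
  refine Complex.ext ?_ (by rw [him, Complex.ofReal_im])
  rw [hmain, Real.log_mul two_ne_zero hq'.ne']
  simp only [Complex.add_re, Complex.sub_re, Complex.neg_re, Complex.ofReal_re, Complex.re_sum,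
    Complex.re_mul_ofReal]
  rw [sum_congr rfl fun (a : ℕ) _ => show (w ^ a).re * Real.log (Real.sin (π * a / q)) =
      Real.cos (2 * π * a * p / q) * Real.log (Real.sin (π * a / q)) by
    rw [hwexp, ← Complex.exp_nat_mul, show (a : ℂ) * (((-2 * θ : ℝ) : ℂ) * I) =
      (((a : ℝ) * (-2 * θ) : ℝ) : ℂ) * I by push_cast; ring, Complex.exp_ofReal_mul_I_re,
      ← Real.cos_neg, hθ]
    congr 2
    ring]
  ring

theorem digamma_one_quarter :
    digamma (1 / 4 : ℂ) =
      ((-Real.eulerMascheroniConstant - π / 2 - 3 * Real.log 2 : ℝ) : ℂ) := by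
  have h := gauss_digamma (p := 1) (q := 4) one_pos (by norm_num)
  rw [show Ico 1 4 = {1, 2, 3} from rfl, sum_insert (by simp), sum_insert (by simp),
    sum_singleton] at h
  simp only [Nat.cast_one, Nat.cast_ofNat, mul_one] at h
  have e : -Real.eulerMascheroniConstant - Real.log (2 * 4) - π / 2 * Real.cot (π / 4) +
      (Real.cos (2 * π / 4) * Real.log (Real.sin (π / 4)) +
        (Real.cos (2 * π * 2 / 4) * Real.log (Real.sin (π * 2 / 4)) +
          Real.cos (2 * π * 3 / 4) * Real.log (Real.sin (π * 3 / 4)))) =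
      -Real.eulerMascheroniConstant - π / 2 - 3 * Real.log 2 := by
    rw [show (2 : ℝ) * 4 = 2 ^ 3 by norm_num, Real.log_pow, show 2 * π / 4 = π / 2 by ring,
      show 2 * π * 2 / 4 = π by ring, show 2 * π * 3 / 4 = π / 2 + π by ring,
      show π * 2 / 4 = π / 2 by ring, Real.cot_eq_cos_div_sin, Real.cos_pi_div_four,
      Real.sin_pi_div_four, div_self (by positivity), Real.cos_add_pi, Real.cos_pi_div_two,
      Real.cos_pi, Real.sin_pi_div_two, Real.log_one]
    push_cast
    ring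
  rw [h, ← e]

theorem digamma_one_third :
    digamma (1 / 3 : ℂ) =
      ((-Real.eulerMascheroniConstant - π * Real.sqrt 3 / 6 - 3 / 2 * Real.log 3 : ℝ) : ℂ) := by
  have h := gauss_digamma (p := 1) (q := 3) one_pos (by norm_num)
  rw [show Ico 1 3 = {1, 2} from rfl, sum_insert (by simp), sum_singleton] at h
  simp only [Nat.cast_one, Nat.cast_ofNat, mul_one] at h
  have e : -Real.eulerMascheroniConstant - Real.log (2 * 3) - π / 2 * Real.cot (π / 3) +
      (Real.cos (2 * π / 3) * Real.log (Real.sin (π / 3)) +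
        Real.cos (2 * π * 2 / 3) * Real.log (Real.sin (π * 2 / 3))) =
      -Real.eulerMascheroniConstant - π * Real.sqrt 3 / 6 - 3 / 2 * Real.log 3 := by
    have h3 : (0 : ℝ) < 3 := by norm_num
    rw [show 2 * π / 3 = π - π / 3 by ring, show 2 * π * 2 / 3 = π / 3 + π by ring,
      show π * 2 / 3 = π - π / 3 by ring, Real.cos_pi_sub, Real.cos_add_pi, Real.sin_pi_sub,
      Real.cot_eq_cos_div_sin, Real.cos_pi_div_three, Real.sin_pi_div_three,
      Real.log_div (by positivity) two_ne_zero, Real.log_sqrt h3.le,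
      Real.log_mul two_ne_zero h3.ne']
    field_simp
    rw [show (6 : ℝ) = 2 * 3 by norm_num]
    ring_nf
    rw [Real.sq_sqrt h3.le]
    ring
  rw [h, ← e]

end FA.GaussDigamma

end
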